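/-
S56 / W5 leaf L3, part 3 (owner: helper88): two commuting trace-zero endomorphisms of a plane are
linearly dependent (`2 ≠ 0`), so the commutator of a basis of a plane of trace-zero endomorphisms
spans a line.
-/
import Mathlib

set_option autoImplicit false
set_option linter.style.haveILetI false

namespace Fermat.Agent.S56.TW

section Matrix

variable {k : Type*} [Field k]

/-- Two commuting trace-zero `2 × 2` matrices are linearly dependent. -/
theorem ad0irr_matrix_dependent (h2 : (2 : k) ≠ 0) (M N : Matrix (Fin 2) (Fin 2) k)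
    (hM : M.trace = 0) (hN : N.trace = 0) (hMN : M * N = N * M) :
    ∃ a b : k, (a ≠ 0 ∨ b ≠ 0) ∧ a • M + b • N = 0 := by
  have hM11 : M 1 1 = - M 0 0 := by
    rw [Matrix.trace_fin_two] at hM
    exact eq_neg_of_add_eq_zero_right hM
  have hN11 : N 1 1 = - N 0 0 := by
    rw [Matrix.trace_fin_two] at hN
    exact eq_neg_of_add_eq_zero_right hN
  have e00 := congrFun (congrFun hMN 0) 0
  have e01 := congrFun (congrFun hMN 0) 1
  have e10 := congrFun (congrFun hMN 1) 0
  simp only [Matrix.mul_apply, Fin.sum_univ_two, hM11, hN11] at e00 e01 e10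
  have h1 : M 0 1 * N 1 0 = N 0 1 * M 1 0 := by linear_combination e00
  have h2' : M 0 0 * N 0 1 = M 0 1 * N 0 0 := by
    have : (2 : k) * (M 0 0 * N 0 1 - M 0 1 * N 0 0) = 0 := by linear_combination e01
    rcases mul_eq_zero.1 this with h | h
    · exact absurd h h2
    · exact sub_eq_zero.1 h
  have h3 : M 1 0 * N 0 0 = M 0 0 * N 1 0 := by
    have : (2 : k) * (M 1 0 * N 0 0 - M 0 0 * N 1 0) = 0 := by linear_combination e10
    rcases mul_eq_zero.1 this with h | h
    · exact absurd h h2
    · exact sub_eq_zero.1 h
  by_cases hm00 : M 0 0 = 0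
  · by_cases hm01 : M 0 1 = 0
    · by_cases hm10 : M 1 0 = 0
      · refine ⟨1, 0, Or.inl one_ne_zero, ?_⟩
        ext i j
        fin_cases i <;> fin_cases j <;> simp [hm00, hm01, hm10, hM11]
      · refine ⟨N 1 0, - M 1 0, Or.inr (neg_ne_zero.2 hm10), ?_⟩
        ext i j
        fin_cases i <;> fin_cases j <;>
          simp only [Matrix.add_apply, Matrix.smul_apply, smul_eq_mul, Matrix.zero_apply,
            Fin.zero_eta, Fin.mk_one, Fin.isValue, hM11, hN11]
        · linear_combination -h3
        · linear_combination h1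
        · ring
        · linear_combination h3
    · refine ⟨N 0 1, - M 0 1, Or.inr (neg_ne_zero.2 hm01), ?_⟩
      ext i j
      fin_cases i <;> fin_cases j <;>
        simp only [Matrix.add_apply, Matrix.smul_apply, smul_eq_mul, Matrix.zero_apply,
          Fin.zero_eta, Fin.mk_one, Fin.isValue, hM11, hN11]
      · linear_combination h2'
      · ring
      · linear_combination -h1
      · linear_combination -h2'
  · refine ⟨N 0 0, - M 0 0, Or.inr (neg_ne_zero.2 hm00), ?_⟩
    ext i j
    fin_cases i <;> fin_cases j <;>
      simp only [Matrix.add_apply, Matrix.smul_apply, smul_eq_mul, Matrix.zero_apply,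
        Fin.zero_eta, Fin.mk_one, Fin.isValue, hM11, hN11]
    · ring
    · linear_combination -h2'
    · linear_combination h3
    · ring

end Matrix

section End

variable {k : Type*} [Field k] {V : Type*} [AddCommGroup V] [Module k V]

/-- Two commuting trace-zero endomorphisms of a plane are linearly dependent. -/
theorem ad0irr_end_dependent (hV : Module.finrank k V = 2) (h2 : (2 : k) ≠ 0)
    (X Y : Module.End k V) (hX : LinearMap.trace k V X = 0) (hY : LinearMap.trace k V Y = 0)
    (hXY : X * Y = Y * X) : ∃ a b : k, (a ≠ 0 ∨ b ≠ 0) ∧ a • X + b • Y = 0 := by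
  haveI : Module.Finite k V := Module.finite_of_finrank_eq_succ hV
  let b := Module.finBasisOfFinrankEq k V hV
  have hX' : (LinearMap.toMatrix b b X).trace = 0 := by
    rw [← LinearMap.trace_eq_matrix_trace]; exact hX
  have hY' : (LinearMap.toMatrix b b Y).trace = 0 := by
    rw [← LinearMap.trace_eq_matrix_trace]; exact hY
  have hXY' : LinearMap.toMatrix b b X * LinearMap.toMatrix b b Y =
      LinearMap.toMatrix b b Y * LinearMap.toMatrix b b X := by
    rw [← LinearMap.toMatrix_mul, ← LinearMap.toMatrix_mul, hXY]
  obtain ⟨a, c, hac, h⟩ := ad0irr_matrix_dependent h2 _ _ hX' hY' hXY'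
  refine ⟨a, c, hac, (LinearMap.toMatrix b b).injective ?_⟩
  rw [map_add, map_smul, map_smul, h, map_zero]

end End

end Fermat.Agent.S56.TW
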