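/-
S56 / W5 leaf L3, part 1 (owner: helper88): linear algebra of endomorphisms of a plane.
* `ad0irr_sq_eq_smul`            : Cayley-Hamilton for trace-zero endomorphisms, `A² = - det A`;
* `ad0irr_baseChange_eq_zero`    : `A ⊗ K = 0 ⇒ A = 0`;
* `ad0irr_baseChange_ne_smul`    : a nonzero trace-zero endomorphism is not a scalar after base
                                   change (`2 ≠ 0`);
* `ad0irr_finrank_ker_trace`     : the trace-zero endomorphisms have dimension `3`.
-/
import Mathlib

set_option autoImplicit false
set_option linter.style.haveILetI false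

namespace Fermat.Agent.S56.TW

open Polynomial
open scoped TensorProduct

section Plane

variable {K : Type*} [Field K] {U : Type*} [AddCommGroup U] [Module K U]

/-- Cayley-Hamilton for a trace-zero endomorphism of a plane. -/
theorem ad0irr_sq_eq_smul (hU : Module.finrank K U = 2) (A : Module.End K U)
    (htr : LinearMap.trace K U A = 0) : A * A = (-LinearMap.det A) • (1 : Module.End K U) := by
  haveI : Module.Finite K U := Module.finite_of_finrank_eq_succ hU
  let b := Module.finBasisOfFinrankEq K U hU
  have h1 := LinearMap.aeval_self_charpoly A
  have h2 : A.charpoly = X ^ 2 - C (LinearMap.trace K U A) * X + C (LinearMap.det A) := by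
    rw [← LinearMap.charpoly_toMatrix A b, Matrix.charpoly_fin_two,
      ← LinearMap.trace_eq_matrix_trace, LinearMap.det_toMatrix]
  rw [h2, htr, map_zero, zero_mul, sub_zero, map_add, map_pow, aeval_X, aeval_C] at h1
  rw [neg_smul, eq_neg_iff_add_eq_zero, ← h1, pow_two, Algebra.algebraMap_eq_smul_one]

/-- The trace of a scalar endomorphism of a plane. -/
theorem ad0irr_trace_smul_one (hU : Module.finrank K U = 2) (μ : K) :
    LinearMap.trace K U (μ • (1 : Module.End K U)) = 2 * μ := by
  haveI : Module.Finite K U := Module.finite_of_finrank_eq_succ hU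
  rw [map_smul, LinearMap.trace_one, hU, smul_eq_mul, mul_comm]
  norm_num

end Plane

section BaseChange

variable {k : Type*} [Field k] {V : Type*} [AddCommGroup V] [Module k V]
  (K : Type*) [Field K] [Algebra k K]

/-- Base change of endomorphisms is injective. -/
theorem ad0irr_baseChange_eq_zero [Module.Finite k V] (A : Module.End k V)
    (h : A.baseChange K = 0) : A = 0 := by
  classical
  let b := Module.finBasis k V
  have h1 := LinearMap.toMatrix_baseChange K A b b
  rw [h, map_zero] at h1
  have h2 : LinearMap.toMatrix b b A = 0 := by
    ext i j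
    have := congrFun (congrFun h1 i) j
    simp only [Matrix.zero_apply, Matrix.map_apply] at this
    rw [Matrix.zero_apply]
    exact (map_eq_zero (algebraMap k K)).1 this.symm
  exact (LinearMap.toMatrix b b).injective (by rw [h2, map_zero])

/-- A nonzero trace-zero endomorphism of a plane is not a scalar, even after base change. -/
theorem ad0irr_baseChange_ne_smul (hV : Module.finrank k V = 2) (h2 : (2 : K) ≠ 0)
    (A : Module.End k V) (hA : A ≠ 0) (htr : LinearMap.trace k V A = 0) (μ : K) :
    A.baseChange K ≠ μ • (1 : Module.End K (K ⊗[k] V)) := by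
  haveI : Module.Finite k V := Module.finite_of_finrank_eq_succ hV
  intro h
  have hVK : Module.finrank K (K ⊗[k] V) = 2 := by
    rw [Module.finrank_baseChange, hV]
  have h1 := LinearMap.trace_baseChange A K
  rw [h, ad0irr_trace_smul_one hVK, htr, map_zero] at h1
  have hμ : μ = 0 := by
    rcases mul_eq_zero.1 h1 with h | h
    · exact absurd h h2
    · exact h
  rw [hμ, zero_smul] at h
  exact hA (ad0irr_baseChange_eq_zero K A h)

end BaseChange

section Dim

variable {k : Type*} [Field k] {V : Type*} [AddCommGroup V] [Module k V]

/-- The trace-zero endomorphisms of a plane form a `3`-dimensional space. -/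
theorem ad0irr_finrank_ker_trace (hV : Module.finrank k V = 2) (h2 : (2 : k) ≠ 0) :
    Module.finrank k (LinearMap.ker (LinearMap.trace k V)) = 3 := by
  haveI : Module.Finite k V := Module.finite_of_finrank_eq_succ hV
  have h1 := LinearMap.finrank_range_add_finrank_ker (LinearMap.trace k V)
  have h4 : Module.finrank k (Module.End k V) = 4 := by
    rw [Module.finrank_linearMap, hV]
  have hsurj : Function.Surjective (LinearMap.trace k V) := by
    intro c
    refine ⟨(c / 2) • (1 : Module.End k V), ?_⟩
    rw [ad0irr_trace_smul_one hV]
    field_simp
  have hr : Module.finrank k (LinearMap.range (LinearMap.trace k V)) = 1 := by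
    rw [LinearMap.range_eq_top.2 hsurj, finrank_top, Module.finrank_self]
  rw [hr, h4] at h1
  omega

end Dim

end Fermat.Agent.S56.TW
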